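import Mathlib
import Fermat.Prelude.Def_GaloisRep_StrictOrdinary
import Fermat.Prelude.Def_GaloisRep_Flat

/-!
# Program TW, WP0: stability of the local conditions of S56 under base change

For a local ring homomorphism `φ : R →+* A` of local rings and `ρ : GaloisRepAdic R` we show that
every clause of the two deformation conditions of S56 (`GaloisRep.strictOrdinaryCondition`,
`GaloisRep.flatCondition`, unipotent inertia) passes from `ρ` to `ρ.baseChangeAlong φ hφ`.
For the flat clause we need `φ` surjective.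

All names live in `Fermat.Agent.TW.Reduction.BaseChangeCond`.
-/

set_option autoImplicit false
set_option linter.unusedSectionVars false
set_option linter.style.haveILetI false

open scoped TensorProduct
open IsLocalRing

namespace Fermat.Agent.TW.Reduction.BaseChangeCond

section General

variable {R A : Type} [CommRing R] [IsLocalRing R] [CommRing A] [IsLocalRing A]

/-- The base-changed Galois action, spelled out. -/
theorem baseChangeAlong_rho_apply (φ : R →+* A) (hφ : IsLocalHom φ) (ρ : GaloisRepAdic R)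
    (σ : AlgebraicClosure ℚ ≃ₐ[ℚ] AlgebraicClosure ℚ) :
    letI : Algebra R A := φ.toAlgebra
    (ρ.baseChangeAlong φ hφ).ρ σ = (ρ.ρ σ).baseChange A := rfl

theorem natCast_mem_maximalIdeal (φ : R →+* A) (hφ : IsLocalHom φ) {p : ℕ}
    (h : (p : R) ∈ maximalIdeal R) : (p : A) ∈ maximalIdeal A := by
  have := hφ
  have h1 : φ (p : R) ∈ maximalIdeal A := map_nonunit φ _ h
  rwa [map_natCast] at h1

theorem map_mem_span_natCast (φ : R →+* A) {m : ℕ} {x : R}
    (h : x ∈ Ideal.span {((m : ℕ) : R)}) : φ x ∈ Ideal.span {((m : ℕ) : A)} := by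
  obtain ⟨c, rfl⟩ := Ideal.mem_span_singleton'.mp h
  rw [map_mul, map_natCast]
  exact Ideal.mem_span_singleton'.mpr ⟨φ c, rfl⟩

theorem detIsCyclotomic_baseChangeAlong (φ : R →+* A) (hφ : IsLocalHom φ) {ρ : GaloisRepAdic R}
    {p : ℕ} (h : ρ.DetIsCyclotomic p) : (ρ.baseChangeAlong φ hφ).DetIsCyclotomic p := by
  letI : Algebra R A := φ.toAlgebra
  refine ⟨natCast_mem_maximalIdeal φ hφ h.1, fun n σ a ha => ?_⟩
  have h1 := h.2 n σ a ha
  have h2 : LinearMap.det ((ρ.baseChangeAlong φ hφ).ρ σ) = φ (LinearMap.det (ρ.ρ σ)) := by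
    show LinearMap.det ((ρ.ρ σ).baseChange A) = φ (LinearMap.det (ρ.ρ σ))
    rw [LinearMap.det_baseChange]
    rfl
  rw [h2, ← map_natCast φ a, ← map_sub]
  exact map_mem_span_natCast φ h1

theorem isUnramifiedAt_baseChangeAlong (φ : R →+* A) (hφ : IsLocalHom φ) {ρ : GaloisRepAdic R}
    {q : ℕ} (h : ρ.IsUnramifiedAt q) : (ρ.baseChangeAlong φ hφ).IsUnramifiedAt q := by
  letI : Algebra R A := φ.toAlgebra
  intro P hP σ hσ
  show (ρ.ρ σ).baseChange A = 1
  rw [h P hP σ hσ, LinearMap.baseChange_one]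

theorem isUnipotentOnInertiaAt_baseChangeAlong (φ : R →+* A) (hφ : IsLocalHom φ)
    {ρ : GaloisRepAdic R} {q : ℕ} (h : ρ.IsUnipotentOnInertiaAt q) :
    (ρ.baseChangeAlong φ hφ).IsUnipotentOnInertiaAt q := by
  letI : Algebra R A := φ.toAlgebra
  intro P hP σ hσ
  show LinearMap.charpoly ((ρ.ρ σ).baseChange A) = (Polynomial.X - 1) ^ 2
  rw [LinearMap.charpoly_baseChange, h P hP σ hσ]
  simp

/-! ### Strict ordinarity -/

theorem smul_one_tmul (φ : R →+* A) {V : Type} [AddCommGroup V] [Module R V] (x : R) (c : A)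
    (v : V) :
    letI : Algebra R A := φ.toAlgebra
    c ⊗ₜ[R] (x • v) = φ x • (c ⊗ₜ[R] v) := by
  letI : Algebra R A := φ.toAlgebra
  rw [TensorProduct.tmul_smul, TensorProduct.smul_tmul', TensorProduct.smul_tmul',
    Algebra.smul_def, smul_eq_mul]
  rfl

/-- The local clause of strict ordinarity, for the explicit tensor product. -/
theorem strictOrdinary_core (φ : R →+* A) (ρ : GaloisRepAdic R) (p : ℕ)
    (P : ValuationSubring (AlgebraicClosure ℚ))
    (h : ∃ L : Submodule R ρ.V,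
      (∃ b : Module.Basis (Fin 2) R ρ.V, L = R ∙ b 0) ∧
      (∀ σ ∈ P.decompositionSubgroup ℚ, ∀ v ∈ L, ρ.ρ σ v ∈ L) ∧
      (∀ σ ∈ P.inertiaSubgroupIn ℚ, ∀ v : ρ.V, ρ.ρ σ v - v ∈ L) ∧
      (∀ σ ∈ P.decompositionSubgroup ℚ, ∃ x z : R,
        (∀ w ∈ L, ρ.ρ σ w = x • w) ∧ (∀ v : ρ.V, ρ.ρ σ v - z • v ∈ L) ∧
        ∀ (n a : ℕ), (∀ μ : AlgebraicClosure ℚ, μ ^ p ^ n = 1 → σ μ = μ ^ a) →
          x - (a : R) * z ∈ Ideal.span {((p ^ n : ℕ) : R)})) :
    letI : Algebra R A := φ.toAlgebra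
    ∃ L : Submodule A (A ⊗[R] ρ.V),
      (∃ b : Module.Basis (Fin 2) A (A ⊗[R] ρ.V), L = A ∙ b 0) ∧
      (∀ σ ∈ P.decompositionSubgroup ℚ, ∀ v ∈ L, (ρ.ρ σ).baseChange A v ∈ L) ∧
      (∀ σ ∈ P.inertiaSubgroupIn ℚ, ∀ v : A ⊗[R] ρ.V, (ρ.ρ σ).baseChange A v - v ∈ L) ∧
      (∀ σ ∈ P.decompositionSubgroup ℚ, ∃ x z : A,
        (∀ w ∈ L, (ρ.ρ σ).baseChange A w = x • w) ∧
        (∀ v : A ⊗[R] ρ.V, (ρ.ρ σ).baseChange A v - z • v ∈ L) ∧
        ∀ (n a : ℕ), (∀ μ : AlgebraicClosure ℚ, μ ^ p ^ n = 1 → σ μ = μ ^ a) →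
          x - (a : A) * z ∈ Ideal.span {((p ^ n : ℕ) : A)}) := by
  letI : Algebra R A := φ.toAlgebra
  obtain ⟨L, ⟨b, hLb⟩, hD, hI, hchar⟩ := h
  -- the line of the base change
  let LA : Submodule A (A ⊗[R] ρ.V) := L.baseChange A
  -- (c): scalar action on the line
  have hc : ∀ (σ : AlgebraicClosure ℚ ≃ₐ[ℚ] AlgebraicClosure ℚ) (x : R),
      (∀ w ∈ L, ρ.ρ σ w = x • w) → ∀ w ∈ LA, (ρ.ρ σ).baseChange A w = φ x • w := by
    intro σ x hx w hw
    have hw' : w ∈ Submodule.span A (L.map (TensorProduct.mk R A ρ.V 1) : Set (A ⊗[R] ρ.V)) := by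
      rw [← Submodule.baseChange_eq_span]; exact hw
    refine Submodule.span_induction (p := fun w _ => (ρ.ρ σ).baseChange A w = φ x • w)
      ?_ ?_ ?_ ?_ hw'
    · rintro _ ⟨v, hv, rfl⟩
      rw [TensorProduct.mk_apply, LinearMap.baseChange_tmul, hx v hv]
      exact smul_one_tmul φ x 1 v
    · rw [map_zero, smul_zero]
    · intro y z _ _ hy hz
      rw [map_add, hy, hz, smul_add]
    · intro a y _ hy
      rw [map_smul, hy, smul_comm]
  -- (a)/(b): congruence modulo the line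
  have hb : ∀ (σ : AlgebraicClosure ℚ ≃ₐ[ℚ] AlgebraicClosure ℚ) (z : R),
      (∀ v : ρ.V, ρ.ρ σ v - z • v ∈ L) →
        ∀ w : A ⊗[R] ρ.V, (ρ.ρ σ).baseChange A w - φ z • w ∈ LA := by
    intro σ z hz w
    induction w using TensorProduct.induction_on with
    | zero => rw [map_zero, smul_zero, sub_zero]; exact Submodule.zero_mem _
    | tmul c v =>
      rw [LinearMap.baseChange_tmul, ← smul_one_tmul φ z c v, ← TensorProduct.tmul_sub]
      exact Submodule.tmul_mem_baseChange_of_mem c (hz v)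
    | add y y' hy hy' =>
      rw [map_add, smul_add, add_sub_add_comm]
      exact Submodule.add_mem _ hy hy'
  refine ⟨LA, ⟨b.baseChange A, ?_⟩, ?_, ?_, ?_⟩
  · show L.baseChange A = _
    rw [hLb, Submodule.baseChange_span, Set.image_singleton, TensorProduct.mk_apply,
      Module.Basis.baseChange_apply]
  · intro σ hσ v hv
    obtain ⟨x, z, hx, -, -⟩ := hchar σ hσ
    rw [hc σ x hx v hv]
    exact Submodule.smul_mem _ _ hv
  · intro σ hσ v
    have h1 := hb σ 1 (fun v => by rw [one_smul]; exact hI σ hσ v) v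
    rwa [map_one, one_smul] at h1
  · intro σ hσ
    obtain ⟨x, z, hx, hz, hxz⟩ := hchar σ hσ
    refine ⟨φ x, φ z, fun w hw => hc σ x hx w hw, fun v => hb σ z hz v, fun n a ha => ?_⟩
    rw [← map_natCast φ a, ← map_mul, ← map_sub]
    exact map_mem_span_natCast φ (hxz n a ha)

theorem isStrictOrdinaryAt_baseChangeAlong (φ : R →+* A) (hφ : IsLocalHom φ)
    {ρ : GaloisRepAdic R} {p : ℕ} (h : ρ.IsStrictOrdinaryAt p) :
    (ρ.baseChangeAlong φ hφ).IsStrictOrdinaryAt p :=
  ⟨natCast_mem_maximalIdeal φ hφ h.1, fun P hP => strictOrdinary_core φ ρ p P (h.2 P hP)⟩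

end General

/-! ### Flatness -/

section FlatCore

variable {R A : Type} [CommRing R] [CommRing A] [Algebra R A]

/-- Membership in `I • ⊤` can be read off on coordinates. -/
theorem mem_smul_top_iff_repr {ι : Type*} {V : Type} [AddCommGroup V] [Module R V]
    (b : Module.Basis ι R V) (I : Ideal R) (x : V) :
    x ∈ I • (⊤ : Submodule R V) ↔ ∀ i, b.repr x i ∈ I := by
  constructor
  · intro hx i
    refine Submodule.smul_induction_on (p := fun x => b.repr x i ∈ I) hx ?_ ?_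
    · intro a ha y _
      rw [map_smul, Finsupp.smul_apply, smul_eq_mul]
      exact Ideal.mul_mem_right _ _ ha
    · intro x y hx hy
      rw [map_add, Finsupp.add_apply]
      exact Ideal.add_mem _ hx hy
  · intro h
    rw [← b.linearCombination_repr x, Finsupp.linearCombination_apply]
    exact Submodule.sum_mem _ fun i _ => Submodule.smul_mem_smul (h i) Submodule.mem_top

/-- Every element of `A ⊗[R] V` is of the form `1 ⊗ v` when `R → A` is surjective. -/
theorem exists_one_tmul_eq (hsurj : Function.Surjective (algebraMap R A)) {V : Type}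
    [AddCommGroup V] [Module R V] (w : A ⊗[R] V) : ∃ v : V, (1 : A) ⊗ₜ[R] v = w := by
  induction w using TensorProduct.induction_on with
  | zero => exact ⟨0, TensorProduct.tmul_zero _ _⟩
  | tmul c v =>
    obtain ⟨r, rfl⟩ := hsurj c
    refine ⟨r • v, ?_⟩
    rw [TensorProduct.tmul_smul, TensorProduct.smul_tmul', Algebra.smul_def, mul_one]
  | add y y' hy hy' =>
    obtain ⟨v, rfl⟩ := hy
    obtain ⟨v', rfl⟩ := hy'
    exact ⟨v + v', TensorProduct.tmul_add _ _ _⟩

/-- For surjective `R → A`, an ideal `I` of `A` with preimage `J` in `R` and a free `R`-module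
`V`, the map `v ↦ 1 ⊗ v` induces an additive bijection `V/JV ≃ (A ⊗ V)/I(A ⊗ V)`. -/
theorem exists_quotient_addEquiv (hsurj : Function.Surjective (algebraMap R A)) (V : Type)
    [AddCommGroup V] [Module R V] [Module.Free R V] (I : Ideal A) :
    ∃ ψ : (V ⧸ ((I.comap (algebraMap R A)) • (⊤ : Submodule R V))) ≃+
        ((A ⊗[R] V) ⧸ (I • (⊤ : Submodule A (A ⊗[R] V)))),
      ∀ v : V, ψ (Submodule.Quotient.mk v) = Submodule.Quotient.mk ((1 : A) ⊗ₜ[R] v) := by
  classical
  set J : Ideal R := I.comap (algebraMap R A) with hJ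
  set N : Submodule A (A ⊗[R] V) := I • (⊤ : Submodule A (A ⊗[R] V)) with hN
  let f : V →ₗ[R] ((A ⊗[R] V) ⧸ N) :=
    (N.mkQ.restrictScalars R).comp (TensorProduct.mk R A V 1)
  have hf : ∀ v, f v = Submodule.Quotient.mk ((1 : A) ⊗ₜ[R] v) := fun v => rfl
  have hker : J • (⊤ : Submodule R V) ≤ LinearMap.ker f := by
    refine Submodule.smul_le.mpr fun r hr v _ => ?_
    rw [LinearMap.mem_ker, hf, Submodule.Quotient.mk_eq_zero]
    have : (1 : A) ⊗ₜ[R] (r • v) = algebraMap R A r • ((1 : A) ⊗ₜ[R] v) := by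
      rw [TensorProduct.tmul_smul, TensorProduct.smul_tmul', TensorProduct.smul_tmul',
        Algebra.smul_def, smul_eq_mul]
    rw [this]
    exact Submodule.smul_mem_smul (Ideal.mem_comap.mp hr) Submodule.mem_top
  have hker' : LinearMap.ker f ≤ J • (⊤ : Submodule R V) := by
    intro v hv
    rw [LinearMap.mem_ker, hf, Submodule.Quotient.mk_eq_zero] at hv
    let b := Module.Free.chooseBasis R V
    rw [mem_smul_top_iff_repr b]
    intro i
    have h1 := (mem_smul_top_iff_repr (b.baseChange A) I _).mp hv i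
    rw [Module.Basis.baseChange_repr_tmul, Algebra.smul_def, mul_one] at h1
    exact Ideal.mem_comap.mpr h1
  let g : (V ⧸ (J • (⊤ : Submodule R V))) →ₗ[R] ((A ⊗[R] V) ⧸ N) :=
    (J • (⊤ : Submodule R V)).liftQ f hker
  have hg : ∀ v, g (Submodule.Quotient.mk v) = Submodule.Quotient.mk ((1 : A) ⊗ₜ[R] v) :=
    fun v => rfl
  have hinj : Function.Injective g := by
    rw [← LinearMap.ker_eq_bot]
    exact Submodule.ker_liftQ_eq_bot _ f hker hker'
  have hsurj' : Function.Surjective g := by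
    intro y
    obtain ⟨w, rfl⟩ := Submodule.Quotient.mk_surjective N y
    obtain ⟨v, rfl⟩ := exists_one_tmul_eq hsurj w
    exact ⟨Submodule.Quotient.mk v, hg v⟩
  exact ⟨AddEquiv.ofBijective g.toAddMonoidHom ⟨hinj, hsurj'⟩, hg⟩

end FlatCore

section Flat

variable {R A : Type} [CommRing R] [IsLocalRing R] [CommRing A] [IsLocalRing A]

theorem finite_residueField_of_surjective (φ : R →+* A) (hφ : IsLocalHom φ)
    (hsurj : Function.Surjective φ) [Finite (ResidueField R)] : Finite (ResidueField A) := by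
  haveI := hφ
  refine Finite.of_surjective (IsLocalRing.ResidueField.map φ) fun y => ?_
  obtain ⟨a, rfl⟩ := IsLocalRing.residue_surjective y
  obtain ⟨r, rfl⟩ := hsurj a
  exact ⟨IsLocalRing.residue R r, IsLocalRing.ResidueField.map_residue φ r⟩

/-- The flat clause for the explicit tensor product. -/
theorem flat_core (φ : R →+* A) (hsurj : Function.Surjective φ) (ρ : GaloisRepAdic R) (p : ℕ)
    (h : ρ.IsFlatAt p) :
    letI : Algebra R A := φ.toAlgebra
    ∀ I : Ideal A, Finite (A ⧸ I) →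
    ∃ (H : Type) (_ : CommRing H) (_ : HopfAlgebra (GaloisRep.ratLocalizedAt p) H),
      Module.Finite (GaloisRep.ratLocalizedAt p) H ∧
      Module.Flat (GaloisRep.ratLocalizedAt p) H ∧
      Coalgebra.IsCocomm (GaloisRep.ratLocalizedAt p) H ∧
      ∃ e : WithConv (H →ₐ[GaloisRep.ratLocalizedAt p] AlgebraicClosure ℚ) ≃
          ((A ⊗[R] ρ.V) ⧸ (I • (⊤ : Submodule A (A ⊗[R] ρ.V)))),
        (∀ f g : WithConv (H →ₐ[GaloisRep.ratLocalizedAt p] AlgebraicClosure ℚ),
          e (f * g) = e f + e g) ∧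
        ∀ (σ : AlgebraicClosure ℚ ≃ₐ[ℚ] AlgebraicClosure ℚ)
          (f g : WithConv (H →ₐ[GaloisRep.ratLocalizedAt p] AlgebraicClosure ℚ)),
          (∀ h : H, g h = σ (f h)) → ∀ w : A ⊗[R] ρ.V, e f = Submodule.Quotient.mk w →
            e g = Submodule.Quotient.mk ((ρ.ρ σ).baseChange A w) := by
  letI : Algebra R A := φ.toAlgebra
  intro I hI
  have hJ : Finite (R ⧸ I.comap φ) :=
    Finite.of_injective (Ideal.quotientMap I φ le_rfl) Ideal.quotientMap_injective
  obtain ⟨H, i1, i2, hfin, hflat, hcocomm, e, hmul, hequiv⟩ := h.2 (I.comap φ) hJ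
  obtain ⟨ψ, hψ⟩ := exists_quotient_addEquiv (R := R) (A := A) hsurj ρ.V I
  refine ⟨H, i1, i2, hfin, hflat, hcocomm, e.trans ψ.toEquiv, fun f g => ?_,
    fun σ f g hfg w hw => ?_⟩
  · show ψ (e (f * g)) = ψ (e f) + ψ (e g)
    rw [hmul, map_add]
  · show ψ (e g) = _
    have hw' : ψ (e f) = Submodule.Quotient.mk w := hw
    obtain ⟨v, hv⟩ := Submodule.Quotient.mk_surjective _ (e f)
    rw [hequiv σ f g hfg, ← hv]
    rw [← hv, hψ] at hw'
    show ψ (Submodule.Quotient.mk (ρ.ρ σ v)) = _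
    rw [hψ]
    -- `1 ⊗ v ≡ w`, hence `1 ⊗ ρ σ v = (ρ σ)_A (1 ⊗ v) ≡ (ρ σ)_A w`
    rw [← LinearMap.baseChange_tmul, Submodule.Quotient.eq, ← map_sub]
    have h1 : (1 : A) ⊗ₜ[R] v - w ∈ I • (⊤ : Submodule A (A ⊗[R] ρ.V)) :=
      (Submodule.Quotient.eq _).mp hw'
    have hle : I • (⊤ : Submodule A (A ⊗[R] ρ.V)) ≤
        (I • (⊤ : Submodule A (A ⊗[R] ρ.V))).comap ((ρ.ρ σ).baseChange A) := by
      rw [← Submodule.map_le_iff_le_comap, Submodule.map_smul'']
      exact Submodule.smul_mono le_rfl le_top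
    exact hle h1

theorem isFlatAt_baseChangeAlong (φ : R →+* A) (hφ : IsLocalHom φ)
    (hsurj : Function.Surjective φ) {ρ : GaloisRepAdic R} {p : ℕ} (h : ρ.IsFlatAt p) :
    (ρ.baseChangeAlong φ hφ).IsFlatAt p := by
  haveI := h.1
  refine ⟨finite_residueField_of_surjective φ hφ hsurj, fun I hI => ?_⟩
  obtain ⟨H, i1, i2, hfin, hflat, hcocomm, e, hmul, hequiv⟩ := flat_core φ hsurj ρ p h I hI
  refine ⟨H, i1, i2, hfin, hflat, hcocomm, e, hmul, fun σ f g hfg => ?_⟩
  obtain ⟨w, hw⟩ := Submodule.Quotient.mk_surjective _ (e f)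
  have h1 := hequiv σ f g hfg w hw.symm
  have h2 : (ρ.baseChangeAlong φ hφ).levelAction I σ (Submodule.Quotient.mk w) =
      (ρ.baseChangeAlong φ hφ).levelAction I σ (e f) := congrArg _ hw
  exact h1.trans h2

end Flat

/-! ### The two deformation conditions of S56 -/

section Conditions

variable {R A : Type} [CommRing R] [IsLocalRing R] [CommRing A] [IsLocalRing A]
variable {𝒪 : Type} [CommRing 𝒪] [Algebra 𝒪 R] [Algebra 𝒪 A]

theorem strictOrdinaryCondition_baseChangeAlong (φ : R →+* A) (hφ : IsLocalHom φ)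
    {ρ : GaloisRepAdic R} {p : ℕ} {S : Finset ℕ}
    (h : GaloisRep.strictOrdinaryCondition 𝒪 p S ρ) :
    GaloisRep.strictOrdinaryCondition 𝒪 p S (ρ.baseChangeAlong φ hφ) :=
  ⟨detIsCyclotomic_baseChangeAlong φ hφ h.1, isStrictOrdinaryAt_baseChangeAlong φ hφ h.2.1,
    fun q hq hqS => isUnramifiedAt_baseChangeAlong φ hφ (h.2.2 q hq hqS)⟩

theorem flatCondition_baseChangeAlong (φ : R →+* A) (hφ : IsLocalHom φ)
    (hsurj : Function.Surjective φ) {ρ : GaloisRepAdic R} {p : ℕ} {S : Finset ℕ}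
    (h : GaloisRep.flatCondition 𝒪 p S ρ) :
    GaloisRep.flatCondition 𝒪 p S (ρ.baseChangeAlong φ hφ) :=
  ⟨detIsCyclotomic_baseChangeAlong φ hφ h.1, isFlatAt_baseChangeAlong φ hφ hsurj h.2.1,
    fun q hq hqS => isUnramifiedAt_baseChangeAlong φ hφ (h.2.2 q hq hqS)⟩

end Conditions

end Fermat.Agent.TW.Reduction.BaseChangeCond
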