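import Mathlib
import Fermat.Agent.S53.EvalNilp

/-!
# TW / Reduction : power series surject onto complete local algebras (helper81)

Let `𝒪` be a local ring which is complete for its maximal ideal and let `R` be a complete
Noetherian local `𝒪`-algebra (local structure map) whose residue field is generated by `𝒪`.
If `u : σ → 𝔪_R` (with `σ` finite) spans `𝔪_R / (𝔪_R ^ 2 + 𝔪_𝒪 R)`, then the `𝒪`-algebra
homomorphism `𝒪⟦X_i : i ∈ σ⟧ → R`, `X i ↦ u i`, exists and is surjective.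

Main declarations (namespace `Fermat.Agent.TW.Reduction.PowerSeriesSurj81`):
* `evalTop u hu : MvPowerSeries σ 𝒪 →ₐ[𝒪] R` with `evalTop_X`;
* `evalTop_surjective`;
* `exists_algHom_surjective_of_le`.
-/

set_option autoImplicit false

noncomputable section

namespace Fermat.Agent.TW.Reduction.PowerSeriesSurj81

open IsLocalRing MvPowerSeries

section lift

variable {𝒪 : Type*} [CommRing 𝒪]
variable {R : Type*} [CommRing R] [IsLocalRing R] [Algebra 𝒪 R]
variable {σ : Type*}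

theorem span_range_mk_pow_eq_bot (u : σ → R) (hu : ∀ i, u i ∈ maximalIdeal R) (n : ℕ) :
    Ideal.span (Set.range fun i => Ideal.Quotient.mk (maximalIdeal R ^ n) (u i)) ^ n = ⊥ := by
  have h1 : Ideal.span (Set.range fun i => Ideal.Quotient.mk (maximalIdeal R ^ n) (u i)) ≤
      (maximalIdeal R).map (Ideal.Quotient.mk (maximalIdeal R ^ n)) := by
    rw [Ideal.span_le]
    rintro _ ⟨i, rfl⟩
    exact Ideal.mem_map_of_mem _ (hu i)
  rw [eq_bot_iff]
  refine (Ideal.pow_right_mono h1 n).trans ?_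
  rw [← Ideal.map_pow, Ideal.map_quotient_self]

variable [Finite σ]

/-- The level `n` evaluation `𝒪⟦X⟧ → R / 𝔪 ^ n`, `X i ↦ u i`. -/
def evalLevel (u : σ → R) (hu : ∀ i, u i ∈ maximalIdeal R) (n : ℕ) :
    MvPowerSeries σ 𝒪 →ₐ[𝒪] R ⧸ maximalIdeal R ^ n :=
  Fermat.Agent.S53.evalNilp (fun i => Ideal.Quotient.mk (maximalIdeal R ^ n) (u i)) n
    (span_range_mk_pow_eq_bot u hu n)

@[simp]
theorem evalLevel_X (u : σ → R) (hu : ∀ i, u i ∈ maximalIdeal R) (n : ℕ) (i : σ) :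
    evalLevel (𝒪 := 𝒪) u hu n (X i) = Ideal.Quotient.mk (maximalIdeal R ^ n) (u i) :=
  Fermat.Agent.S53.evalNilp_X _ _ _ i

theorem evalLevel_compat (u : σ → R) (hu : ∀ i, u i ∈ maximalIdeal R) {m n : ℕ} (hle : m ≤ n) :
    (Ideal.Quotient.factorₐ 𝒪 (Ideal.pow_le_pow_right hle)).comp (evalLevel (𝒪 := 𝒪) u hu n) =
      evalLevel u hu m := by
  apply Fermat.Agent.S53.eq_evalNilp
  intro i
  simp

variable [IsAdicComplete (maximalIdeal R) R]

/-- Evaluation of power series over `𝒪` at a tuple of elements of the maximal ideal of a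
complete local `𝒪`-algebra. -/
def evalTop (u : σ → R) (hu : ∀ i, u i ∈ maximalIdeal R) : MvPowerSeries σ 𝒪 →ₐ[𝒪] R :=
  IsAdicComplete.liftAlgHom (maximalIdeal R) (evalLevel u hu)
    (fun hle => evalLevel_compat u hu hle)

theorem mk_evalTop (u : σ → R) (hu : ∀ i, u i ∈ maximalIdeal R) (n : ℕ)
    (f : MvPowerSeries σ 𝒪) :
    Ideal.Quotient.mk (maximalIdeal R ^ n) (evalTop u hu f) = evalLevel u hu n f := by
  unfold evalTop
  rw [IsAdicComplete.mk_liftAlgHom]

@[simp]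
theorem evalTop_X (u : σ → R) (hu : ∀ i, u i ∈ maximalIdeal R) (i : σ) :
    evalTop (𝒪 := 𝒪) u hu (X i) = u i := by
  have h := IsHausdorff.funext' (R := Unit) (maximalIdeal R)
    (f := fun _ => evalTop (𝒪 := 𝒪) u hu (X i)) (g := fun _ => u i) (fun n _ => by
      rw [mk_evalTop, evalLevel_X])
  exact congrFun h ()

end lift

section surj

variable {𝒪 : Type*} [CommRing 𝒪] [IsLocalRing 𝒪] [IsPrecomplete (maximalIdeal 𝒪) 𝒪]
variable {R : Type*} [CommRing R] [IsLocalRing R] [IsNoetherianRing R] [Algebra 𝒪 R]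
  [IsLocalHom (algebraMap 𝒪 R)]
variable {σ : Type*}

omit [IsPrecomplete (maximalIdeal 𝒪) 𝒪] [IsNoetherianRing R] in
theorem map_maximalIdeal_le : (maximalIdeal 𝒪).map (algebraMap 𝒪 R) ≤ maximalIdeal R :=
  ((IsLocalRing.local_hom_TFAE (algebraMap 𝒪 R)).out 0 2).mp ‹_›

omit [IsPrecomplete (maximalIdeal 𝒪) 𝒪] [IsLocalRing 𝒪] [IsLocalHom (algebraMap 𝒪 R)] in
/-- Nakayama: a tuple spanning the relative cotangent space generates the maximal ideal modulo
`𝔪_𝒪 R`. -/
theorem maximalIdeal_le_span_sup_map (U J : Ideal R)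
    (hspan : maximalIdeal R ≤ U ⊔ maximalIdeal R ^ 2 ⊔ J) :
    maximalIdeal R ≤ U ⊔ J := by
  refine Submodule.le_of_le_smul_of_le_jacobson_bot (I := maximalIdeal R)
    (IsNoetherian.noetherian _) ?_ ?_
  · rw [IsLocalRing.jacobson_eq_maximalIdeal ⊥ bot_ne_top]
  · rw [smul_eq_mul, ← pow_two]
    refine hspan.trans (le_of_eq ?_)
    ac_rfl

/-- If `𝔪_R ≤ U + 𝔪_𝒪 R` then `𝒪 → R / U` is surjective. -/
theorem exists_sub_algebraMap_mem (U : Ideal R)
    (hres : Function.Surjective (IsLocalRing.residue R ∘ algebraMap 𝒪 R))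
    (hU : maximalIdeal R ≤ U ⊔ (maximalIdeal 𝒪).map (algebraMap 𝒪 R)) (x : R) :
    ∃ c : 𝒪, x - algebraMap 𝒪 R c ∈ U := by
  have : IsHausdorff (maximalIdeal 𝒪) (R ⧸ U) :=
    IsHausdorff.of_map (S := R) (J := maximalIdeal R) map_maximalIdeal_le
  have hsurj : Function.Surjective (Algebra.linearMap 𝒪 (R ⧸ U)) := by
    apply surjective_of_mkQ_comp_surjective (I := maximalIdeal 𝒪)
    intro y
    obtain ⟨y', rfl⟩ := Submodule.mkQ_surjective _ y
    obtain ⟨x', rfl⟩ := Ideal.Quotient.mk_surjective y'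
    obtain ⟨c, hc⟩ := hres (residue R x')
    refine ⟨c, ?_⟩
    have h1 : x' - algebraMap 𝒪 R c ∈ maximalIdeal R := by
      rw [← residue_eq_zero_iff, map_sub, sub_eq_zero]
      exact hc.symm
    obtain ⟨a, ha, b, hb, hab⟩ := Submodule.mem_sup.mp (hU h1)
    have h2 : Ideal.Quotient.mk U b ∈
        (maximalIdeal 𝒪 • ⊤ : Submodule 𝒪 (R ⧸ U)) := by
      rw [Ideal.smul_top_eq_map, Submodule.restrictScalars_mem]
      have := Ideal.mem_map_of_mem (Ideal.Quotient.mk U) hb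
      rw [Ideal.map_map] at this
      exact this
    simp only [LinearMap.coe_comp, Function.comp_apply, Algebra.linearMap_apply]
    rw [eq_comm, ← sub_eq_zero, ← map_sub, Submodule.mkQ_apply, Submodule.Quotient.mk_eq_zero]
    have h3 : Ideal.Quotient.mk U x' - algebraMap 𝒪 (R ⧸ U) c = Ideal.Quotient.mk U b := by
      have : algebraMap 𝒪 (R ⧸ U) c = Ideal.Quotient.mk U (algebraMap 𝒪 R c) := rfl
      rw [this, ← map_sub, ← hab, map_add, Ideal.Quotient.eq_zero_iff_mem.mpr ha, zero_add]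
    rw [h3]
    exact h2
  obtain ⟨c, hc⟩ := hsurj (Ideal.Quotient.mk U x)
  refine ⟨c, ?_⟩
  rw [← Ideal.Quotient.eq_zero_iff_mem, map_sub, ← hc, sub_eq_zero]
  rfl

variable [Finite σ] [IsAdicComplete (maximalIdeal R) R]

/-- **Surjectivity of the evaluation map** `𝒪⟦X⟧ → R`, `X i ↦ u i`, when the `u i` span the
relative cotangent space `𝔪_R / (𝔪_R ^ 2 + 𝔪_𝒪 R)`. -/
theorem evalTop_surjective (u : σ → R) (hu : ∀ i, u i ∈ maximalIdeal R)
    (hres : Function.Surjective (IsLocalRing.residue R ∘ algebraMap 𝒪 R))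
    (hspan : maximalIdeal R ≤ Ideal.span (Set.range u) ⊔ maximalIdeal R ^ 2 ⊔
      (maximalIdeal 𝒪).map (algebraMap 𝒪 R)) :
    Function.Surjective (evalTop (𝒪 := 𝒪) u hu) := by
  set γ := evalTop (𝒪 := 𝒪) u hu with hγ
  set I : Ideal (MvPowerSeries σ 𝒪) := Ideal.span (Set.range X) with hI
  have hmap : I.map (γ : MvPowerSeries σ 𝒪 →+* R) = Ideal.span (Set.range u) := by
    rw [hI, Ideal.map_span, ← Set.range_comp]
    congr 2
    funext i
    simp [hγ]
  have hle : I.map (γ : MvPowerSeries σ 𝒪 →+* R) ≤ maximalIdeal R := by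
    rw [hmap, Ideal.span_le]
    rintro _ ⟨i, rfl⟩
    exact hu i
  have : IsHausdorff (I.map (γ : MvPowerSeries σ 𝒪 →+* R)) R :=
    IsHausdorff.of_isLocalRing _ _ (fun h => (maximalIdeal.isMaximal R).ne_top
      (top_le_iff.mp (h ▸ hle)))
  have hU := maximalIdeal_le_span_sup_map _ _ hspan
  refine surjective_of_mk_map_comp_surjective (I := I) (γ : MvPowerSeries σ 𝒪 →+* R) ?_
  intro y
  obtain ⟨x, rfl⟩ := Ideal.Quotient.mk_surjective y
  obtain ⟨c, hc⟩ := exists_sub_algebraMap_mem (𝒪 := 𝒪) (Ideal.span (Set.range u)) hres hU x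
  refine ⟨MvPowerSeries.C c, ?_⟩
  rw [RingHom.comp_apply, eq_comm, ← sub_eq_zero, ← map_sub, Ideal.Quotient.eq_zero_iff_mem, hmap]
  have : (γ : MvPowerSeries σ 𝒪 →+* R) (MvPowerSeries.C c) = algebraMap 𝒪 R c := by
    rw [MvPowerSeries.c_eq_algebraMap]
    exact γ.commutes c
  rw [this]
  exact hc

/-- Existence form. -/
theorem exists_algHom_surjective_of_le (u : σ → R) (hu : ∀ i, u i ∈ maximalIdeal R)
    (hres : Function.Surjective (IsLocalRing.residue R ∘ algebraMap 𝒪 R))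
    (hspan : maximalIdeal R ≤ Ideal.span (Set.range u) ⊔ maximalIdeal R ^ 2 ⊔
      (maximalIdeal 𝒪).map (algebraMap 𝒪 R)) :
    ∃ γ : MvPowerSeries σ 𝒪 →ₐ[𝒪] R, (∀ i, γ (X i) = u i) ∧ Function.Surjective γ :=
  ⟨evalTop u hu, evalTop_X u hu, evalTop_surjective u hu hres hspan⟩

end surj

end Fermat.Agent.TW.Reduction.PowerSeriesSurj81
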