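import Mathlib
import Fermat.Agent.S53.Tangent
import Fermat.Agent.S53.TangentHom
import Fermat.Agent.TW.Reduction.PowerSeriesSurj81

/-!
# TW / Reduction : counting tangent vectors (helper81)

Pure commutative algebra.  `𝒪` is a local ring with residue field `k`, and `k[ε] = DualNumber k`
carries the `𝒪`-algebra structure `Fermat.Agent.S53.dualNumberAlgebra`.

* Part 1 (`section SqZero`): for an `𝒪`-algebra `B` with an augmentation `π : B →ₐ[𝒪] k`, a section
  `j : k →+* B` compatible with the structure maps, and `(ker π) ^ 2 = 0`, every `k`-linear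
  functional `φ` on `KerSpace π j = ker π` gives an `𝒪`-algebra homomorphism
  `tanHom φ : B → k[ε]`, `x ↦ π x + φ (x - j (π x)) ε`; it is injective in `φ` and `tanHom φ` is
  surjective as soon as `φ ≠ 0`.
-/

set_option autoImplicit false

noncomputable section

namespace Fermat.Agent.TW.Reduction.TangentCount81

open IsLocalRing

attribute [local instance] Fermat.Agent.S53.dualNumberAlgebra

section SqZero

variable {𝒪 : Type} [CommRing 𝒪] [IsLocalRing 𝒪]
variable {B : Type} [CommRing B] [Algebra 𝒪 B]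
variable (π : B →ₐ[𝒪] ResidueField 𝒪) (j : ResidueField 𝒪 →+* B)

/-- The kernel of the augmentation `π`, as a type synonym remembering the section `j` (which
provides the `k`-vector space structure). -/
def KerSpace (π : B →ₐ[𝒪] ResidueField 𝒪) (_j : ResidueField 𝒪 →+* B) : Type :=
  RingHom.ker (π : B →+* ResidueField 𝒪)

instance : AddCommGroup (KerSpace π j) :=
  inferInstanceAs (AddCommGroup (RingHom.ker (π : B →+* ResidueField 𝒪)))

instance : Module (ResidueField 𝒪) (KerSpace π j) :=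
  Module.compHom (RingHom.ker (π : B →+* ResidueField 𝒪)) j

/-- The underlying element of `B`. -/
def KerSpace.val (x : KerSpace π j) : B := (x : RingHom.ker (π : B →+* ResidueField 𝒪)).1

theorem KerSpace.pi_val (x : KerSpace π j) : π x.val = 0 :=
  (x : RingHom.ker (π : B →+* ResidueField 𝒪)).2

theorem KerSpace.ext {x y : KerSpace π j} (h : x.val = y.val) : x = y := Subtype.ext h

@[simp] theorem KerSpace.val_add (x y : KerSpace π j) : (x + y).val = x.val + y.val := rfl

@[simp] theorem KerSpace.val_zero : (0 : KerSpace π j).val = 0 := rfl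

@[simp] theorem KerSpace.val_smul (c : ResidueField 𝒪) (x : KerSpace π j) :
    (c • x).val = j c * x.val := rfl

/-- Constructor. -/
def KerSpace.mk (x : B) (hx : π x = 0) : KerSpace π j :=
  (⟨x, hx⟩ : RingHom.ker (π : B →+* ResidueField 𝒪))

@[simp] theorem KerSpace.val_mk (x : B) (hx : π x = 0) : (KerSpace.mk π j x hx).val = x := rfl

variable (hj : ∀ c : 𝒪, j (residue 𝒪 c) = algebraMap 𝒪 B c)

include hj in
theorem pi_j (c : ResidueField 𝒪) : π (j c) = c := by
  obtain ⟨c, rfl⟩ := IsLocalRing.residue_surjective c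
  rw [hj, AlgHom.commutes, ResidueField.algebraMap_eq]

/-- The projection of `B` onto the augmentation ideal along `j`. -/
def toKer (x : B) : KerSpace π j :=
  KerSpace.mk π j (x - j (π x)) (by rw [map_sub, pi_j π j hj, sub_self])

@[simp] theorem toKer_val (x : B) : (toKer π j hj x).val = x - j (π x) := rfl

theorem toKer_of_mem (x : KerSpace π j) : toKer π j hj x.val = x := by
  apply KerSpace.ext
  rw [toKer_val, x.pi_val, map_zero, sub_zero]

theorem toKer_add (x y : B) :
    toKer π j hj (x + y) = toKer π j hj x + toKer π j hj y := by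
  apply KerSpace.ext
  simp only [toKer_val, KerSpace.val_add, map_add]
  ring

theorem toKer_algebraMap (c : 𝒪) : toKer π j hj (algebraMap 𝒪 B c) = 0 := by
  apply KerSpace.ext
  rw [toKer_val, AlgHom.commutes, ResidueField.algebraMap_eq, hj, sub_self]
  rfl

theorem toKer_j (c : ResidueField 𝒪) : toKer π j hj (j c) = 0 := by
  obtain ⟨c, rfl⟩ := IsLocalRing.residue_surjective c
  rw [hj, toKer_algebraMap]

variable (hsq : ∀ x y : B, π x = 0 → π y = 0 → x * y = 0)

include hsq in
theorem toKer_mul (x y : B) :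
    toKer π j hj (x * y) = π x • toKer π j hj y + π y • toKer π j hj x := by
  apply KerSpace.ext
  simp only [toKer_val, KerSpace.val_add, KerSpace.val_smul, map_mul]
  have h0 := hsq _ _ (toKer π j hj x).pi_val (toKer π j hj y).pi_val
  simp only [toKer_val] at h0
  linear_combination h0

/-- The `𝒪`-algebra homomorphism `B → k[ε]` attached to a functional on the augmentation ideal. -/
def tanHom (φ : KerSpace π j →ₗ[ResidueField 𝒪] ResidueField 𝒪) :
    B →ₐ[𝒪] DualNumber (ResidueField 𝒪) :=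
  Fermat.Agent.S53.TangentHom.homOfDer (𝒪 := 𝒪) (B := B)
    Fermat.Agent.S53.algebraMap_dualNumber_apply π
    { toFun := fun x => φ (toKer π j hj x)
      map_zero' := by
        have : toKer π j hj 0 = 0 := by simpa using toKer_algebraMap π j hj 0
        rw [this, map_zero]
      map_add' := fun x y => by rw [toKer_add, map_add] }
    (fun x y => by
      show φ (toKer π j hj (x * y)) = π x * φ (toKer π j hj y) + π y * φ (toKer π j hj x)
      rw [toKer_mul π j hj hsq, map_add, map_smul, map_smul, smul_eq_mul, smul_eq_mul])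
    (fun c => by
      show φ (toKer π j hj (algebraMap 𝒪 B c)) = 0
      rw [toKer_algebraMap, map_zero])

theorem tanHom_apply (φ : KerSpace π j →ₗ[ResidueField 𝒪] ResidueField 𝒪) (x : B) :
    tanHom π j hj hsq φ x =
      TrivSqZeroExt.inl (π x) + TrivSqZeroExt.inr (φ (toKer π j hj x)) := rfl

theorem tanHom_val (φ : KerSpace π j →ₗ[ResidueField 𝒪] ResidueField 𝒪) (x : KerSpace π j) :
    tanHom π j hj hsq φ x.val = TrivSqZeroExt.inr (φ x) := by
  rw [tanHom_apply, toKer_of_mem, x.pi_val, TrivSqZeroExt.inl_zero, zero_add]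

theorem tanHom_j (φ : KerSpace π j →ₗ[ResidueField 𝒪] ResidueField 𝒪) (c : ResidueField 𝒪) :
    tanHom π j hj hsq φ (j c) = TrivSqZeroExt.inl c := by
  rw [tanHom_apply, toKer_j, map_zero, TrivSqZeroExt.inr_zero, add_zero, pi_j π j hj]

theorem tanHom_injective : Function.Injective (tanHom π j hj hsq) := by
  intro φ ψ h
  ext x
  have h1 := DFunLike.congr_fun h x.val
  rw [tanHom_val, tanHom_val] at h1
  exact TrivSqZeroExt.inr_injective h1

theorem tanHom_surjective_of_ne_zero (φ : KerSpace π j →ₗ[ResidueField 𝒪] ResidueField 𝒪)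
    (hφ : φ ≠ 0) : Function.Surjective (tanHom π j hj hsq φ) := by
  obtain ⟨w, hw⟩ : ∃ w, φ w ≠ 0 := by
    by_contra h
    push Not at h
    exact hφ (LinearMap.ext h)
  intro t
  refine ⟨j t.fst + j (t.snd * (φ w)⁻¹) * w.val, ?_⟩
  rw [map_add, map_mul, tanHom_j, tanHom_j, tanHom_val]
  apply TrivSqZeroExt.ext
  · simp
  · simp only [TrivSqZeroExt.snd_add, TrivSqZeroExt.snd_inl, TrivSqZeroExt.snd_mul,
      TrivSqZeroExt.fst_inl, TrivSqZeroExt.snd_inr, TrivSqZeroExt.fst_inr, smul_eq_mul,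
      MulOpposite.smul_eq_mul_unop, MulOpposite.unop_op, zero_mul, add_zero, zero_add]
    field_simp

/-- `KerSpace.val` as an additive map. -/
def KerSpace.valHom : KerSpace π j →+ B where
  toFun := KerSpace.val π j
  map_zero' := rfl
  map_add' _ _ := rfl

@[simp] theorem KerSpace.valHom_apply (x : KerSpace π j) : KerSpace.valHom π j x = x.val := rfl

end SqZero

section LinAlg

variable {K : Type*} [Field K] [Finite K] {V : Type*} [AddCommGroup V] [Module K V]

/-- If the nonzero functionals on a vector space `V` over a finite field with `q ≥ 3` elements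
inject into a set with at most `q ^ r` elements, then `V` is spanned by `r` vectors. -/
theorem exists_spanning_of_dual_inj (hq : 3 ≤ Nat.card K) (r : ℕ) {X : Type*} [Finite X]
    (hX : Nat.card X ≤ Nat.card K ^ r)
    (G : {φ : Module.Dual K V // φ ≠ 0} → X) (hG : Function.Injective G) :
    ∃ v : Fin r → V, Submodule.span K (Set.range v) = ⊤ := by
  classical
  have hfin1 : Finite {φ : Module.Dual K V // φ ≠ 0} := Finite.of_injective G hG
  have hfinD : Finite (Module.Dual K V) :=
    Finite.of_equiv _ (Equiv.optionSubtypeNe (0 : Module.Dual K V))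
  have hfinV : Finite V := by
    have hinj : Function.Injective (fun (v : V) (φ : Module.Dual K V) => φ v) := by
      intro v w h
      apply Module.eval_apply_injective K
      ext φ
      exact congrFun h φ
    exact Finite.of_injective _ hinj
  have hMF : Module.Finite K V := Module.Finite.of_finite
  set d := Module.finrank K V with hd
  have hcardD : Nat.card (Module.Dual K V) = Nat.card K ^ d := by
    rw [Module.natCard_eq_pow_finrank (K := K), Subspace.dual_finrank_eq]
  have hle : Nat.card K ^ d ≤ Nat.card K ^ r + 1 := by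
    have h1 : Nat.card {φ : Module.Dual K V // φ ≠ 0} ≤ Nat.card X :=
      Nat.card_le_card_of_injective G hG
    have h2 : Nat.card (Module.Dual K V) = Nat.card {φ : Module.Dual K V // φ ≠ 0} + 1 := by
      rw [← Nat.card_congr (Equiv.optionSubtypeNe (0 : Module.Dual K V)), Finite.card_option]
    omega
  have hdr : d ≤ r := by
    by_contra hlt
    push Not at hlt
    have h3 : Nat.card K ^ (r + 1) ≤ Nat.card K ^ d := Nat.pow_le_pow_right (by omega) hlt
    have h4 : 3 * Nat.card K ^ r ≤ Nat.card K ^ (r + 1) := by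
      rw [pow_succ, mul_comm]
      exact Nat.mul_le_mul_left _ hq
    have h5 : 1 ≤ Nat.card K ^ r := Nat.one_le_pow _ _ (by omega)
    omega
  let b := Module.finBasis K V
  refine ⟨fun i => if h : (i : ℕ) < d then b ⟨i, h⟩ else 0, ?_⟩
  rw [eq_top_iff, ← b.span_eq]
  apply Submodule.span_mono
  rintro _ ⟨i, rfl⟩
  refine ⟨⟨i, lt_of_lt_of_le i.2 hdr⟩, ?_⟩
  have hi : (i : ℕ) < d := i.2
  simp only [hi, dite_true]

end LinAlg

section Setup

variable {𝒪 : Type} [CommRing 𝒪] [IsLocalRing 𝒪]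
variable {R : Type} [CommRing R] [IsLocalRing R] [Algebra 𝒪 R] [IsLocalHom (algebraMap 𝒪 R)]
variable (hres : Function.Surjective (IsLocalRing.residue R ∘ algebraMap 𝒪 R))

/-- The identification of the residue fields of `𝒪` and `R`. -/
def resEquiv : ResidueField 𝒪 ≃+* ResidueField R :=
  RingEquiv.ofBijective (ResidueField.map (algebraMap 𝒪 R))
    ⟨(ResidueField.map (algebraMap 𝒪 R)).injective, fun x => by
      obtain ⟨a, rfl⟩ := IsLocalRing.residue_surjective x
      obtain ⟨c, hc⟩ := hres (residue R a)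
      exact ⟨residue 𝒪 c, by rw [ResidueField.map_residue]; exact hc⟩⟩

/-- The residue map `R → k` as an `𝒪`-algebra homomorphism to the residue field of `𝒪`. -/
def resO : R →ₐ[𝒪] ResidueField 𝒪 :=
  { ((resEquiv hres).symm : ResidueField R →+* ResidueField 𝒪).comp (residue R) with
    commutes' := fun c => by
      show (resEquiv hres).symm (residue R (algebraMap 𝒪 R c)) = algebraMap 𝒪 (ResidueField 𝒪) c
      rw [RingEquiv.symm_apply_eq, ResidueField.algebraMap_eq]
      exact (ResidueField.map_residue (algebraMap 𝒪 R) c).symm }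

theorem resO_apply (x : R) : resO hres x = (resEquiv hres).symm (residue R x) := rfl

theorem resO_eq_zero_iff (x : R) : resO hres x = 0 ↔ x ∈ maximalIdeal R := by
  rw [resO_apply, map_eq_zero_iff _ (resEquiv hres).symm.injective, residue_eq_zero_iff]

variable (𝒪 R) in
/-- The ideal `𝔪_R ^ 2 + 𝔪_𝒪 R`; the quotient of `𝔪_R` by it is the relative cotangent space. -/
def tanIdeal : Ideal R := maximalIdeal R ^ 2 ⊔ (maximalIdeal 𝒪).map (algebraMap 𝒪 R)

theorem tanIdeal_le : tanIdeal 𝒪 R ≤ maximalIdeal R :=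
  sup_le (Ideal.pow_le_self two_ne_zero) PowerSeriesSurj81.map_maximalIdeal_le

/-- The augmentation of `R / (𝔪_R ^ 2 + 𝔪_𝒪 R)`. -/
def tanPi : (R ⧸ tanIdeal 𝒪 R) →ₐ[𝒪] ResidueField 𝒪 :=
  Ideal.Quotient.liftₐ (tanIdeal 𝒪 R) (resO hres)
    (fun a ha => (resO_eq_zero_iff hres a).mpr (tanIdeal_le ha))

theorem tanPi_mk (a : R) : tanPi hres (Ideal.Quotient.mk (tanIdeal 𝒪 R) a) = resO hres a := rfl

omit [IsLocalHom (algebraMap 𝒪 R)] in
theorem algebraMap_mem_tanIdeal {c : 𝒪} (hc : c ∈ maximalIdeal 𝒪) :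
    algebraMap 𝒪 R c ∈ tanIdeal 𝒪 R :=
  (le_sup_right : _ ≤ tanIdeal 𝒪 R) (Ideal.mem_map_of_mem _ hc)

variable (𝒪 R) in
/-- The section `k → R / (𝔪_R ^ 2 + 𝔪_𝒪 R)`. -/
def tanJ : ResidueField 𝒪 →+* (R ⧸ tanIdeal 𝒪 R) :=
  Ideal.Quotient.lift (maximalIdeal 𝒪) (algebraMap 𝒪 (R ⧸ tanIdeal 𝒪 R)) (fun c hc => by
    show Ideal.Quotient.mk _ (algebraMap 𝒪 R c) = 0
    rw [Ideal.Quotient.eq_zero_iff_mem]
    exact algebraMap_mem_tanIdeal hc)

omit [IsLocalHom (algebraMap 𝒪 R)] in
theorem tanJ_residue (c : 𝒪) :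
    tanJ 𝒪 R (residue 𝒪 c) = algebraMap 𝒪 (R ⧸ tanIdeal 𝒪 R) c :=
  Ideal.Quotient.lift_mk _ _ _

theorem tan_sq (x y : R ⧸ tanIdeal 𝒪 R) (hx : tanPi hres x = 0) (hy : tanPi hres y = 0) :
    x * y = 0 := by
  obtain ⟨a, rfl⟩ := Ideal.Quotient.mk_surjective x
  obtain ⟨b, rfl⟩ := Ideal.Quotient.mk_surjective y
  have ha : a ∈ maximalIdeal R := (resO_eq_zero_iff hres a).mp hx
  have hb : b ∈ maximalIdeal R := (resO_eq_zero_iff hres b).mp hy
  rw [← map_mul, Ideal.Quotient.eq_zero_iff_mem]
  refine (le_sup_left : _ ≤ tanIdeal 𝒪 R) ?_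
  rw [pow_two]
  exact Ideal.mul_mem_mul ha hb

include hres in
/-- **Tangent count, algebraic form.**  If the surjective `𝒪`-algebra homomorphisms
`R → k[ε]` are separated by a map to a set with at most `|k| ^ r` elements (`|k| ≥ 3`), then the
relative cotangent space `𝔪_R / (𝔪_R ^ 2 + 𝔪_𝒪 R)` is spanned by `r` elements. -/
theorem exists_spanning_tuple [Finite (ResidueField 𝒪)] (hq : 3 ≤ Nat.card (ResidueField 𝒪))
    (r : ℕ) {X : Type*} [Finite X] (hX : Nat.card X ≤ Nat.card (ResidueField 𝒪) ^ r)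
    (F : (R →ₐ[𝒪] DualNumber (ResidueField 𝒪)) → X)
    (hF : ∀ φ ψ : R →ₐ[𝒪] DualNumber (ResidueField 𝒪), Function.Surjective φ →
      Function.Surjective ψ → F φ = F ψ → φ = ψ) :
    ∃ u : Fin r → R, (∀ i, u i ∈ maximalIdeal R) ∧
      maximalIdeal R ≤ Ideal.span (Set.range u) ⊔ maximalIdeal R ^ 2 ⊔
        (maximalIdeal 𝒪).map (algebraMap 𝒪 R) := by
  set π := tanPi hres with hπ
  set j := tanJ 𝒪 R with hjdef
  have hj : ∀ c : 𝒪, j (residue 𝒪 c) = algebraMap 𝒪 (R ⧸ tanIdeal 𝒪 R) c := tanJ_residue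
  have hsq : ∀ x y : R ⧸ tanIdeal 𝒪 R, π x = 0 → π y = 0 → x * y = 0 := tan_sq hres
  have hmk : Function.Surjective (Ideal.Quotient.mkₐ 𝒪 (tanIdeal 𝒪 R)) :=
    Ideal.Quotient.mkₐ_surjective 𝒪 _
  let G : {φ : Module.Dual (ResidueField 𝒪) (KerSpace π j) // φ ≠ 0} → X := fun φ =>
    F ((tanHom π j hj hsq φ.1).comp (Ideal.Quotient.mkₐ 𝒪 (tanIdeal 𝒪 R)))
  have hG : Function.Injective G := by
    intro φ ψ h
    have h1 := hF _ _
      ((tanHom_surjective_of_ne_zero π j hj hsq φ.1 φ.2).comp hmk)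
      ((tanHom_surjective_of_ne_zero π j hj hsq ψ.1 ψ.2).comp hmk) h
    have h2 : tanHom π j hj hsq φ.1 = tanHom π j hj hsq ψ.1 :=
      (AlgHom.cancel_right hmk).mp h1
    exact Subtype.ext (tanHom_injective π j hj hsq h2)
  obtain ⟨v, hv⟩ := exists_spanning_of_dual_inj hq r hX G hG
  have hlift : ∀ i, ∃ a : R, Ideal.Quotient.mk (tanIdeal 𝒪 R) a = (v i).val :=
    fun i => Ideal.Quotient.mk_surjective _
  choose u hu using hlift
  have hum : ∀ i, u i ∈ maximalIdeal R := by
    intro i
    rw [← resO_eq_zero_iff hres, ← tanPi_mk, hu i]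
    exact (v i).pi_val
  refine ⟨u, hum, ?_⟩
  intro x hx
  have hx0 : π (Ideal.Quotient.mk (tanIdeal 𝒪 R) x) = 0 := by
    rw [hπ, tanPi_mk, resO_eq_zero_iff]
    exact hx
  have hmem : KerSpace.mk π j _ hx0 ∈ Submodule.span (ResidueField 𝒪) (Set.range v) := by
    rw [hv]
    exact Submodule.mem_top
  obtain ⟨c, hc⟩ := (Submodule.mem_span_range_iff_exists_fun (ResidueField 𝒪)).mp hmem
  have hchat : ∀ i, ∃ a : 𝒪, residue 𝒪 a = c i := fun i => IsLocalRing.residue_surjective _
  choose chat hchat using hchat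
  have hval := congrArg (KerSpace.valHom π j) hc
  rw [map_sum, KerSpace.valHom_apply, KerSpace.val_mk] at hval
  have hterm : ∀ i, KerSpace.valHom π j (c i • v i) =
      Ideal.Quotient.mk (tanIdeal 𝒪 R) (algebraMap 𝒪 R (chat i) * u i) := by
    intro i
    rw [KerSpace.valHom_apply, KerSpace.val_smul, ← hchat i, hj, map_mul, hu i]
    rfl
  rw [Finset.sum_congr rfl (fun i _ => hterm i), ← map_sum, eq_comm,
    Ideal.Quotient.eq] at hval
  have hsum : ∑ i, algebraMap 𝒪 R (chat i) * u i ∈ Ideal.span (Set.range u) :=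
    Ideal.sum_mem _ (fun i _ => Ideal.mul_mem_left _ _ (Ideal.subset_span ⟨i, rfl⟩))
  have hdecomp : x = ∑ i, algebraMap 𝒪 R (chat i) * u i +
      (x - ∑ i, algebraMap 𝒪 R (chat i) * u i) := by ring
  rw [hdecomp, sup_assoc]
  exact Submodule.add_mem_sup hsum hval

include hres in
/-- **Tangent bound, algebraic form.**  `R` a complete Noetherian local `𝒪`-algebra with residue
field `k` (finite, `|k| ≥ 3`).  If the surjective `𝒪`-algebra homomorphisms `R → k[ε]` are
separated by a map to a set with at most `|k| ^ r` elements, then `R` is a quotient of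
`𝒪⟦X_1, …, X_r⟧`. -/
theorem exists_mvPowerSeries_surjective_of_separated
    [IsPrecomplete (maximalIdeal 𝒪) 𝒪] [IsNoetherianRing R] [IsAdicComplete (maximalIdeal R) R]
    [Finite (ResidueField 𝒪)] (hq : 3 ≤ Nat.card (ResidueField 𝒪))
    (r : ℕ) {X : Type*} [Finite X] (hX : Nat.card X ≤ Nat.card (ResidueField 𝒪) ^ r)
    (F : (R →ₐ[𝒪] DualNumber (ResidueField 𝒪)) → X)
    (hF : ∀ φ ψ : R →ₐ[𝒪] DualNumber (ResidueField 𝒪), Function.Surjective φ →
      Function.Surjective ψ → F φ = F ψ → φ = ψ) :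
    ∃ γ : MvPowerSeries (Fin r) 𝒪 →ₐ[𝒪] R, Function.Surjective γ := by
  obtain ⟨u, hu, hspan⟩ := exists_spanning_tuple hres hq r hX F hF
  obtain ⟨γ, -, hγ⟩ := PowerSeriesSurj81.exists_algHom_surjective_of_le u hu hres hspan
  exact ⟨γ, hγ⟩

end Setup

end Fermat.Agent.TW.Reduction.TangentCount81
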