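import Mathlib
import Fermat.Prelude.Def_GaloisRep_DeformationRingData
import Fermat.Agent.S53.Universal
import Fermat.Agent.S53.Tangent
import Fermat.Agent.TW.Reduction.TangentCount81

/-!
# TW / Reduction : the tangent bound for deformation rings (helper81)

`DQ : GaloisRep.DeformationRingData 𝒪 ρbar 𝒟` a universal deformation ring datum, `k` the (finite)
residue field of `𝒪`, `|k| ≥ 3`, and `k[ε] = DualNumber k` with the `𝒪`-algebra structure
`Fermat.Agent.S53.dualNumberAlgebra`.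

* `residual_baseChangeAlong_isEquiv` : the residual representation of a base change along a local
  `𝒪`-algebra homomorphism is still `ρbar`.
* `exists_surjective_of_card_le` : if `𝒟` is stable under base change along *surjective*
  `𝒪`-algebra homomorphisms `DQ.R → k[ε]` and the lifts of `ρbar` to `k[ε]` of type `𝒟` are
  classified, up to equivalence, by a set with at most `|k| ^ r` elements, then there is a
  surjection `𝒪⟦X_1, …, X_r⟧ → DQ.R`.
-/

set_option autoImplicit false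

noncomputable section

namespace Fermat.Agent.TW.Reduction.TangentBound81

open IsLocalRing GaloisRep Fermat.Agent.S53

attribute [local instance] Fermat.Agent.S53.dualNumberAlgebra

section ResidualBaseChange

variable {𝒪 : Type} [CommRing 𝒪] [IsLocalRing 𝒪]
  {R : Type} [CommRing R] [IsLocalRing R] [Algebra 𝒪 R] [IsLocalHom (algebraMap 𝒪 R)]
  {A : Type} [CommRing A] [IsLocalRing A] [Algebra 𝒪 A] [IsLocalHom (algebraMap 𝒪 A)]

omit [IsLocalHom (algebraMap 𝒪 R)] [IsLocalHom (algebraMap 𝒪 A)] in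
/-- Strict lifts are preserved by local `𝒪`-algebra homomorphisms. -/
theorem isStrictLift_mapMat (φ : R →ₐ[𝒪] A) (hφ : IsLocalHom (φ : R →+* A))
    {rbar : GQ →* M2 (ResidueField 𝒪)} {r : GQ →* M2 R} (h : IsStrictLift rbar r) :
    IsStrictLift rbar (mapMat (φ : R →+* A) r) := by
  intro σ i j a ha
  have h1 := h σ i j a ha
  have h2 : mapMat (φ : R →+* A) r σ i j - algebraMap 𝒪 A a =
      (φ : R →+* A) (r σ i j - algebraMap 𝒪 R a) := by
    rw [map_sub]
    have : (φ : R →+* A) (algebraMap 𝒪 R a) = algebraMap 𝒪 A a := φ.commutes a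
    rw [this]
    rfl
  rw [h2]
  exact map_nonunit (φ : R →+* A) _ h1

/-- The residual representation of a base change of a lift of `ρbar` along a local `𝒪`-algebra
homomorphism is again (the base change of) `ρbar`. -/
theorem residual_baseChangeAlong_isEquiv (ρbar : ResidualGaloisRep (ResidueField 𝒪))
    (ρ : GaloisRepAdic R)
    (hres : ρ.residual.IsEquiv (ρbar.baseChangeAlong (ResidueField.map (algebraMap 𝒪 R))))
    (φ : R →ₐ[𝒪] A) (hφ : IsLocalHom (φ : R →+* A)) :
    (ρ.baseChangeAlong (φ : R →+* A) hφ).residual.IsEquiv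
      (ρbar.baseChangeAlong (ResidueField.map (algebraMap 𝒪 A))) := by
  obtain ⟨rbar, hrbar, hρbar⟩ := exists_ofMatrixRes_isEquiv ρbar
  obtain ⟨r, hr, hlift, hequiv⟩ :=
    exists_isStrictLift_of_residual_isEquiv ρbar hrbar hρbar ρ hres
  have h1 : (ρ.baseChangeAlong (φ : R →+* A) hφ).IsEquiv
      (ofMatrix (mapMat (φ : R →+* A) r) (MatrixModel.matCont_mapMat hr (φ : R →+* A) hφ)) :=
    adicIsEquiv_trans (adicIsEquiv_baseChangeAlong (φ : R →+* A) hφ hequiv)
      (MatrixModel.baseChangeAlong_ofMatrix (φ : R →+* A) hφ r hr)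
  exact resIsEquiv_trans (adicIsEquiv_residual h1)
    (residual_isEquiv_of_isStrictLift ρbar hrbar hρbar _ (isStrictLift_mapMat φ hφ hlift))

end ResidualBaseChange

section DualNumber

variable {𝒪 : Type} [CommRing 𝒪] [IsLocalRing 𝒪] [Finite (ResidueField 𝒪)]

/-- The structure map `𝒪 → k[ε]` is local. -/
theorem isLocalHom_algebraMap_dualNumber :
    IsLocalHom (algebraMap 𝒪 (DualNumber (ResidueField 𝒪))) :=
  (test_dualNumber (𝒪 := 𝒪)).isLocalHom

theorem finite_dualNumber : Finite (DualNumber (ResidueField 𝒪)) :=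
  inferInstanceAs (Finite (ResidueField 𝒪 × ResidueField 𝒪))

/-- Every `𝒪`-algebra homomorphism to the dual numbers is local. -/
theorem isLocalHom_of_algHom_dualNumber {R : Type} [CommRing R] [IsLocalRing R] [Algebra 𝒪 R]
    (φ : R →ₐ[𝒪] DualNumber (ResidueField 𝒪)) :
    IsLocalHom (φ : R →+* DualNumber (ResidueField 𝒪)) :=
  up_isLocalHom_of_algHom (test_dualNumber (𝒪 := 𝒪)).isLocalHom
    (test_dualNumber (𝒪 := 𝒪)).residue_surjective φ

omit [Finite (ResidueField 𝒪)] in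
/-- The residue field of `𝒪` has at least three elements when its characteristic is odd. -/
theorem three_le_card_residueField [Finite (ResidueField 𝒪)] (p : ℕ) [Fact p.Prime]
    (hp2 : p ≠ 2) (hp𝒪 : (p : 𝒪) ∈ maximalIdeal 𝒪) : 3 ≤ Nat.card (ResidueField 𝒪) := by
  have h1 : 1 < Nat.card (ResidueField 𝒪) := Finite.one_lt_card
  have hp : ((p : ℕ) : ResidueField 𝒪) = 0 := by
    rw [← map_natCast (residue 𝒪)]
    exact (residue_eq_zero_iff _).mpr hp𝒪
  by_contra hlt
  have h2 : Nat.card (ResidueField 𝒪) = 2 := by omega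
  have h3 : ((2 : ℕ) : ResidueField 𝒪) = 0 := by
    have := Fintype.ofFinite (ResidueField 𝒪)
    rw [← h2, Nat.card_eq_fintype_card]
    exact Nat.cast_card_eq_zero _
  have hodd : Odd p := (Fact.out : p.Prime).odd_of_ne_two hp2
  obtain ⟨m, hm⟩ := hodd
  rw [hm] at hp
  push_cast at hp h3
  rw [h3, zero_mul, zero_add] at hp
  exact one_ne_zero hp

end DualNumber

attribute [local instance] isLocalHom_algebraMap_dualNumber

section Main

variable {𝒪 : Type} [CommRing 𝒪] [IsDomain 𝒪] [IsDiscreteValuationRing 𝒪]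
  [IsAdicComplete (maximalIdeal 𝒪) 𝒪] [Finite (ResidueField 𝒪)]
  {ρbar : ResidualGaloisRep (ResidueField 𝒪)}
  {𝒟 : ∀ ⦃A : Type⦄ [CommRing A] [IsLocalRing A] [Algebra 𝒪 A], GaloisRepAdic A → Prop}

variable (𝒪 ρbar 𝒟) in
/-- Lifts of `ρbar` to the dual numbers `k[ε]` which are of type `𝒟`. -/
abbrev TanLift : Type 1 :=
  {ρ : GaloisRepAdic (DualNumber (ResidueField 𝒪)) // 𝒟 ρ ∧ ρ.residual.IsEquiv
    (ρbar.baseChangeAlong (ResidueField.map (algebraMap 𝒪 (DualNumber (ResidueField 𝒪)))))}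

/-- The lift of `ρbar` to `k[ε]` attached to a surjective `𝒪`-algebra homomorphism
`DQ.R → k[ε]`. -/
def tanLiftOfHom (DQ : DeformationRingData 𝒪 ρbar 𝒟)
    (hbc : ∀ (φ : DQ.R →ₐ[𝒪] DualNumber (ResidueField 𝒪))
      (hφ : IsLocalHom (φ : DQ.R →+* DualNumber (ResidueField 𝒪))), Function.Surjective φ →
      𝒟 (DQ.ρ.baseChangeAlong (φ : DQ.R →+* DualNumber (ResidueField 𝒪)) hφ))
    (φ : {φ : DQ.R →ₐ[𝒪] DualNumber (ResidueField 𝒪) // Function.Surjective φ}) :
    TanLift 𝒪 ρbar 𝒟 :=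
  ⟨DQ.ρ.baseChangeAlong (φ.1 : DQ.R →+* DualNumber (ResidueField 𝒪))
      (isLocalHom_of_algHom_dualNumber φ.1),
    hbc φ.1 (isLocalHom_of_algHom_dualNumber φ.1) φ.2,
    residual_baseChangeAlong_isEquiv ρbar DQ.ρ DQ.residual_isEquiv φ.1
      (isLocalHom_of_algHom_dualNumber φ.1)⟩

/-- Injectivity of `φ ↦ [ρ_φ]`, from the uniqueness part of the universal property. -/
theorem eq_of_tanLiftOfHom_isEquiv (DQ : DeformationRingData 𝒪 ρbar 𝒟)
    (hbc : ∀ (φ : DQ.R →ₐ[𝒪] DualNumber (ResidueField 𝒪))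
      (hφ : IsLocalHom (φ : DQ.R →+* DualNumber (ResidueField 𝒪))), Function.Surjective φ →
      𝒟 (DQ.ρ.baseChangeAlong (φ : DQ.R →+* DualNumber (ResidueField 𝒪)) hφ))
    (φ ψ : {φ : DQ.R →ₐ[𝒪] DualNumber (ResidueField 𝒪) // Function.Surjective φ})
    (h : (tanLiftOfHom DQ hbc φ).1.IsEquiv (tanLiftOfHom DQ hbc ψ).1) : φ = ψ := by
  have hfin : Finite (DualNumber (ResidueField 𝒪)) := finite_dualNumber
  obtain ⟨χ, -, hχ⟩ := DQ.universal (DualNumber (ResidueField 𝒪))
    (test_dualNumber (𝒪 := 𝒪)).residue_surjective (tanLiftOfHom DQ hbc ψ).1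
    (tanLiftOfHom DQ hbc ψ).2.1 (tanLiftOfHom DQ hbc ψ).2.2
  have h1 : φ.1 = χ := hχ φ.1 ⟨isLocalHom_of_algHom_dualNumber φ.1, h⟩
  have h2 : ψ.1 = χ := hχ ψ.1 ⟨isLocalHom_of_algHom_dualNumber ψ.1, adicIsEquiv_refl _⟩
  exact Subtype.ext (h1.trans h2.symm)

/-- **Tangent bound for deformation rings.**  If `𝒟` is stable under base change along surjective
`𝒪`-algebra homomorphisms `DQ.R → k[ε]`, and the lifts of `ρbar` to `k[ε]` of type `𝒟` are
separated up to equivalence by a map to a set with at most `|k| ^ r` elements, then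
`DQ.R` is a quotient of `𝒪⟦X_1, …, X_r⟧`. -/
theorem exists_surjective_of_card_le (DQ : DeformationRingData 𝒪 ρbar 𝒟) (r : ℕ)
    (hq : 3 ≤ Nat.card (ResidueField 𝒪))
    (hbc : ∀ (φ : DQ.R →ₐ[𝒪] DualNumber (ResidueField 𝒪))
      (hφ : IsLocalHom (φ : DQ.R →+* DualNumber (ResidueField 𝒪))), Function.Surjective φ →
      𝒟 (DQ.ρ.baseChangeAlong (φ : DQ.R →+* DualNumber (ResidueField 𝒪)) hφ))
    {X : Type*} [Finite X] (hX : Nat.card X ≤ Nat.card (ResidueField 𝒪) ^ r)
    (F : TanLift 𝒪 ρbar 𝒟 → X) (hF : ∀ ρ ρ' : TanLift 𝒪 ρbar 𝒟, F ρ = F ρ' → ρ.1.IsEquiv ρ'.1) :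
    ∃ γ : MvPowerSeries (Fin r) 𝒪 →ₐ[𝒪] DQ.R, Function.Surjective γ := by
  classical
  by_cases hne : Nonempty X
  · obtain ⟨x₀⟩ := hne
    let F' : (DQ.R →ₐ[𝒪] DualNumber (ResidueField 𝒪)) → X := fun φ =>
      if h : Function.Surjective φ then F (tanLiftOfHom DQ hbc ⟨φ, h⟩) else x₀
    refine TangentCount81.exists_mvPowerSeries_surjective_of_separated DQ.residue_surjective hq r
      hX F' ?_
    intro φ ψ hφ hψ h
    simp only [F', hφ, hψ, dite_true] at h
    exact congrArg Subtype.val (eq_of_tanLiftOfHom_isEquiv DQ hbc ⟨φ, hφ⟩ ⟨ψ, hψ⟩ (hF _ _ h))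
  · have hno : ∀ φ : DQ.R →ₐ[𝒪] DualNumber (ResidueField 𝒪), ¬ Function.Surjective φ :=
      fun φ h => hne ⟨F (tanLiftOfHom DQ hbc ⟨φ, h⟩)⟩
    refine TangentCount81.exists_mvPowerSeries_surjective_of_separated (X := Unit)
      DQ.residue_surjective hq r ?_ (fun _ => ()) ?_
    · rw [Nat.card_unique]
      exact Nat.one_le_pow _ _ (by omega)
    · intro φ ψ hφ
      exact absurd hφ (hno φ)

end Main

end Fermat.Agent.TW.Reduction.TangentBound81
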