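import Mathlib
import Fermat.Agent.TW.Spec.Defs52
import Fermat.Agent.TW.Reduction.TangentBound81
import Fermat.Agent.TW.Reduction.BaseChangeCond

/-!
# TW / Reduction : the tangent bound in the form of the TW contract (helper81)

Bridge between `TangentBound81.exists_surjective_of_card_le` and the quotient-free predicate
`Fermat.Agent.TW.Spec.Defs52.TangentBound` of the TW contract:

* `exists_mvPowerSeries_surjective_of_forall_card_le` : algebraic form, "every finite family of
  distinct surjective `𝒪`-algebra homomorphisms `R → k[ε]` has at most `|k| ^ r` members".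
* `residueFieldMap_algebraMap_dualNumber` : the two ways of writing `k → ResidueField k[ε]` agree.
* `exists_surjective_of_tangentBound` : `TangentBound ρbar 𝒟 r` (+ base change stability of `𝒟`
  along surjections `DQ.R → k[ε]`) gives a surjection `𝒪⟦X_1, …, X_r⟧ → DQ.R`.
-/

set_option autoImplicit false

noncomputable section

namespace Fermat.Agent.TW.Reduction.TangentBoundSpec81

open IsLocalRing GaloisRep Fermat.Agent.S53 Fermat.Agent.TW.Spec.Defs52
open Fermat.Agent.TW.Reduction.TangentBound81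

attribute [local instance] Fermat.Agent.S53.dualNumberAlgebra
attribute [local instance] TangentBound81.isLocalHom_algebraMap_dualNumber

/-- A type all of whose finite subsets have at most `N` elements is finite with at most `N`
elements. -/
theorem finite_and_card_le_of_forall_finset {T : Type*} (N : ℕ)
    (h : ∀ s : Finset T, s.card ≤ N) : Finite T ∧ Nat.card T ≤ N := by
  have hfin : Finite T := by
    by_contra hinf
    rw [not_finite_iff_infinite] at hinf
    obtain ⟨s, hs⟩ := Infinite.exists_subset_card_eq T (N + 1)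
    have := h s
    omega
  refine ⟨hfin, ?_⟩
  have := Fintype.ofFinite T
  rw [Nat.card_eq_fintype_card, ← Finset.card_univ]
  exact h Finset.univ

section Algebraic

variable {𝒪 : Type} [CommRing 𝒪] [IsLocalRing 𝒪]
variable {R : Type} [CommRing R] [IsLocalRing R] [Algebra 𝒪 R] [IsLocalHom (algebraMap 𝒪 R)]

/-- Algebraic tangent bound, family form. -/
theorem exists_mvPowerSeries_surjective_of_forall_card_le
    (hres : Function.Surjective (IsLocalRing.residue R ∘ algebraMap 𝒪 R))
    [IsPrecomplete (maximalIdeal 𝒪) 𝒪] [IsNoetherianRing R] [IsAdicComplete (maximalIdeal R) R]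
    [Finite (ResidueField 𝒪)] (hq : 3 ≤ Nat.card (ResidueField 𝒪)) (r : ℕ)
    (hT : ∀ s : Finset {φ : R →ₐ[𝒪] DualNumber (ResidueField 𝒪) // Function.Surjective φ},
      s.card ≤ Nat.card (ResidueField 𝒪) ^ r) :
    ∃ γ : MvPowerSeries (Fin r) 𝒪 →ₐ[𝒪] R, Function.Surjective γ := by
  classical
  obtain ⟨hfin, hcard⟩ := finite_and_card_le_of_forall_finset _ hT
  by_cases hne : Nonempty {φ : R →ₐ[𝒪] DualNumber (ResidueField 𝒪) // Function.Surjective φ}
  · obtain ⟨x₀⟩ := hne
    refine TangentCount81.exists_mvPowerSeries_surjective_of_separated hres hq r hcard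
      (fun φ => if h : Function.Surjective φ then ⟨φ, h⟩ else x₀) ?_
    intro φ ψ hφ hψ h
    simp only [hφ, hψ, dite_true] at h
    exact congrArg Subtype.val h
  · refine TangentCount81.exists_mvPowerSeries_surjective_of_separated (X := Unit) hres hq r ?_
      (fun _ => ()) ?_
    · rw [Nat.card_unique]
      exact Nat.one_le_pow _ _ (by omega)
    · intro φ ψ hφ
      exact absurd ⟨⟨φ, hφ⟩⟩ hne

end Algebraic

section Main

variable {𝒪 : Type} [CommRing 𝒪] [IsDomain 𝒪] [IsDiscreteValuationRing 𝒪]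
  [IsAdicComplete (maximalIdeal 𝒪) 𝒪] [Finite (ResidueField 𝒪)]
  {ρbar : ResidualGaloisRep (ResidueField 𝒪)}
  {𝒟 : ∀ ⦃A : Type⦄ [CommRing A] [IsLocalRing A] [Algebra 𝒪 A], GaloisRepAdic A → Prop}

omit [IsDomain 𝒪] [IsDiscreteValuationRing 𝒪] [IsAdicComplete (maximalIdeal 𝒪) 𝒪] in
/-- The residue field map of the structure map `𝒪 → k[ε]` is the composite
`k → k[ε] → ResidueField k[ε]`. -/
theorem residueFieldMap_algebraMap_dualNumber [IsLocalRing 𝒪] [Finite (ResidueField 𝒪)] :
    ResidueField.map (algebraMap 𝒪 (DualNumber (ResidueField 𝒪))) =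
      (IsLocalRing.residue (DualNumber (ResidueField 𝒪))).comp
        (algebraMap (ResidueField 𝒪) (DualNumber (ResidueField 𝒪))) := by
  apply RingHom.ext
  intro c
  obtain ⟨a, rfl⟩ := IsLocalRing.residue_surjective c
  rw [ResidueField.map_residue]
  rfl

omit [IsAdicComplete (maximalIdeal 𝒪) 𝒪] in
/-- `ResIso` is the residual condition of `TangentBound81.TanLift`. -/
theorem resIso_iff (ρ : GaloisRepAdic (DualNumber (ResidueField 𝒪))) :
    ResIso ρbar ρ ↔ ρ.residual.IsEquiv
      (ρbar.baseChangeAlong (ResidueField.map (algebraMap 𝒪 (DualNumber (ResidueField 𝒪))))) := by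
  unfold ResIso
  rw [residueFieldMap_algebraMap_dualNumber]

/-- **Tangent bound, contract form.**  If `𝒟` is stable under base change along surjective
`𝒪`-algebra homomorphisms `DQ.R → k[ε]` and `TangentBound ρbar 𝒟 r` holds, then `DQ.R` is a
quotient of `𝒪⟦X_1, …, X_r⟧`. -/
theorem exists_surjective_of_tangentBound (DQ : DeformationRingData 𝒪 ρbar 𝒟) (r : ℕ)
    (hq : 3 ≤ Nat.card (ResidueField 𝒪))
    (hbc : ∀ (φ : DQ.R →ₐ[𝒪] DualNumber (ResidueField 𝒪))
      (hφ : IsLocalHom (φ : DQ.R →+* DualNumber (ResidueField 𝒪))), Function.Surjective φ →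
      𝒟 (DQ.ρ.baseChangeAlong (φ : DQ.R →+* DualNumber (ResidueField 𝒪)) hφ))
    (hT : TangentBound ρbar (fun ρ : GaloisRepAdic (DualNumber (ResidueField 𝒪)) => 𝒟 ρ) r) :
    ∃ γ : MvPowerSeries (Fin r) 𝒪 →ₐ[𝒪] DQ.R, Function.Surjective γ := by
  classical
  refine exists_mvPowerSeries_surjective_of_forall_card_le DQ.residue_surjective hq r ?_
  intro s
  have h := hT s (fun i => (tanLiftOfHom DQ hbc i.1).1)
    (fun i => ⟨(tanLiftOfHom DQ hbc i.1).2.1, (resIso_iff _).mpr (tanLiftOfHom DQ hbc i.1).2.2⟩)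
    (fun i j hij => Subtype.ext (eq_of_tanLiftOfHom_isEquiv DQ hbc i.1 j.1 hij))
  simpa using h

/-- The tangent bound for the strictly ordinary deformation problem of S56. -/
theorem exists_surjective_strictOrdinary (p : ℕ) (S Smin : Finset ℕ)
    (DQ : DeformationRingData 𝒪 ρbar (fun _A _ _ _ ρ =>
      GaloisRep.strictOrdinaryCondition 𝒪 p S ρ ∧
        ∀ q ∈ Smin, q.Prime → q ≠ p → ρ.IsUnipotentOnInertiaAt q))
    (r : ℕ) (hq : 3 ≤ Nat.card (ResidueField 𝒪))
    (hT : TangentBound ρbar (fun ρ : GaloisRepAdic (DualNumber (ResidueField 𝒪)) =>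
      GaloisRep.strictOrdinaryCondition 𝒪 p S ρ ∧
        ∀ q ∈ Smin, q.Prime → q ≠ p → ρ.IsUnipotentOnInertiaAt q) r) :
    ∃ γ : MvPowerSeries (Fin r) 𝒪 →ₐ[𝒪] DQ.R, Function.Surjective γ :=
  exists_surjective_of_tangentBound DQ r hq
    (fun _ hφ _ => ⟨BaseChangeCond.strictOrdinaryCondition_baseChangeAlong _ hφ DQ.isOfType.1,
      fun q hqS hqp hne => BaseChangeCond.isUnipotentOnInertiaAt_baseChangeAlong _ hφ
        (DQ.isOfType.2 q hqS hqp hne)⟩) hT

/-- The tangent bound for the flat deformation problem of S56. -/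
theorem exists_surjective_flat (p : ℕ) (S Smin : Finset ℕ)
    (DQ : DeformationRingData 𝒪 ρbar (fun _A _ _ _ ρ =>
      GaloisRep.flatCondition 𝒪 p S ρ ∧
        ∀ q ∈ Smin, q.Prime → q ≠ p → ρ.IsUnipotentOnInertiaAt q))
    (r : ℕ) (hq : 3 ≤ Nat.card (ResidueField 𝒪))
    (hT : TangentBound ρbar (fun ρ : GaloisRepAdic (DualNumber (ResidueField 𝒪)) =>
      GaloisRep.flatCondition 𝒪 p S ρ ∧
        ∀ q ∈ Smin, q.Prime → q ≠ p → ρ.IsUnipotentOnInertiaAt q) r) :
    ∃ γ : MvPowerSeries (Fin r) 𝒪 →ₐ[𝒪] DQ.R, Function.Surjective γ :=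
  exists_surjective_of_tangentBound DQ r hq
    (fun _ hφ hsurj => ⟨BaseChangeCond.flatCondition_baseChangeAlong _ hφ hsurj DQ.isOfType.1,
      fun q hqS hqp hne => BaseChangeCond.isUnipotentOnInertiaAt_baseChangeAlong _ hφ
        (DQ.isOfType.2 q hqS hqp hne)⟩) hT

end Main

end Fermat.Agent.TW.Reduction.TangentBoundSpec81
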